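import Fermat.Agent.S23
import Fermat.Agent.S49.Normalize
import Fermat.Agent.S49.LinAlg
import Fermat.Prelude.Def_CuspForm_Newforms
import Fermat.Prelude.Thm_CuspForm_intLattice_fg

/-!
# NEWFORM library, piece E (helper863)

* `finiteDimensional_cuspForm` : `S₂(Γ₀(N))` is finite dimensional (from landed S23).
* `exists_normalizedEigenform_of_eigenvector` : a nonzero common eigenvector of the Hecke
  operators `T_ℓ`, `ℓ ∤ M`, `ℓ ∉ S` at level `M` gives a normalised eigenform of level `M`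
  (in the sense of the prelude: eigen for ALL `T_ℓ`, `U_q`) with `a_ℓ = lam ℓ` for those `ℓ`.
* `goodEigensystemOccursAt_of_eigenvector` : the form needed for `IsNewform` arguments.
-/

set_option autoImplicit false
open CuspForm CongruenceSubgroup ModularFormClass

namespace Fermat.Agent.Lib.Newform.H863

theorem finiteDimensional_cuspForm (N : ℕ) [NeZero N] :
    FiniteDimensional ℂ (CuspForm (Gamma0 N) 2) := by
  obtain ⟨S, hS⟩ := CuspForm.intLattice_fg N 2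
  have hint : CuspForm.HasIntegralStructure N 2 := Fermat.Agent.S23.result N
  unfold CuspForm.HasIntegralStructure at hint
  refine ⟨⟨S, top_le_iff.mp ?_⟩⟩
  rw [← hint]
  apply Submodule.span_le.mpr
  intro f hf
  have hf' : f ∈ Submodule.span ℤ (S : Set (CuspForm (Gamma0 N) 2)) := hS ▸ hf
  exact Submodule.span_le_restrictScalars ℤ ℂ _ hf'

/-- The common eigenspace of the good Hecke operators. -/
def goodEigenspace (M : ℕ) [NeZero M] (S : Set ℕ) (lam : ℕ → ℂ) :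
    Submodule ℂ (CuspForm (Gamma0 M) 2) where
  carrier := {h | ∀ (ℓ : ℕ) (hℓ : ℓ.Prime) (hℓM : ¬ ℓ ∣ M), ℓ ∉ S →
    CuspForm.heckeTLin 2 hℓ hℓM h = lam ℓ • h}
  add_mem' := by
    intro a b ha hb ℓ hℓ hℓM hS
    rw [map_add, ha ℓ hℓ hℓM hS, hb ℓ hℓ hℓM hS, smul_add]
  zero_mem' := by
    intro ℓ hℓ hℓM hS
    simp
  smul_mem' := by
    intro c a ha ℓ hℓ hℓM hS
    rw [map_smul, ha ℓ hℓ hℓM hS, smul_comm]

theorem mem_goodEigenspace {M : ℕ} [NeZero M] {S : Set ℕ} {lam : ℕ → ℂ}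
    {h : CuspForm (Gamma0 M) 2} :
    h ∈ goodEigenspace M S lam ↔ ∀ (ℓ : ℕ) (hℓ : ℓ.Prime) (hℓM : ¬ ℓ ∣ M), ℓ ∉ S →
      CuspForm.heckeTLin 2 hℓ hℓM h = lam ℓ • h := Iff.rfl

/-- Every element of the full Hecke algebra preserves the good eigenspace. -/
theorem heckeAlgebra_mapsTo_goodEigenspace {M : ℕ} [NeZero M] (S : Set ℕ) (lam : ℕ → ℂ)
    (t : heckeAlgebra M 2 (∅ : Set ℕ)) (w : CuspForm (Gamma0 M) 2)
    (hw : w ∈ goodEigenspace M S lam) :
    (t : Module.End ℂ (CuspForm (Gamma0 M) 2)) w ∈ goodEigenspace M S lam := by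
  intro ℓ hℓ hℓM hS
  have hcomm : (heckeAlgebra.T hℓ hℓM (Set.notMem_empty _) : heckeAlgebra M 2 (∅ : Set ℕ)) * t
      = t * heckeAlgebra.T hℓ hℓM (Set.notMem_empty _) := mul_comm _ _
  have h1 := congrArg (fun x : heckeAlgebra M 2 (∅ : Set ℕ) =>
    (x : Module.End ℂ (CuspForm (Gamma0 M) 2)) w) hcomm
  simp only [MulMemClass.coe_mul, heckeAlgebra.coe_T, Module.End.mul_apply] at h1
  rw [h1, hw ℓ hℓ hℓM hS, map_smul]

/-- The action of the full Hecke algebra on the good eigenspace. -/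
noncomputable def heckeOnGood (M : ℕ) [NeZero M] (S : Set ℕ) (lam : ℕ → ℂ) :
    heckeAlgebra M 2 (∅ : Set ℕ) →+* Module.End ℂ (goodEigenspace M S lam) where
  toFun t := (t : Module.End ℂ (CuspForm (Gamma0 M) 2)).restrict
    (fun w hw => heckeAlgebra_mapsTo_goodEigenspace S lam t w hw)
  map_one' := by
    ext w
    simp
  map_mul' a b := by
    ext w
    simp [Module.End.mul_apply]
  map_zero' := by
    ext w
    simp
  map_add' a b := by
    ext w
    simp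

theorem heckeOnGood_apply_coe {M : ℕ} [NeZero M] (S : Set ℕ) (lam : ℕ → ℂ)
    (t : heckeAlgebra M 2 (∅ : Set ℕ)) (w : goodEigenspace M S lam) :
    ((heckeOnGood M S lam t w : goodEigenspace M S lam) : CuspForm (Gamma0 M) 2)
      = (t : Module.End ℂ (CuspForm (Gamma0 M) 2)) (w : CuspForm (Gamma0 M) 2) := rfl

/-- **E-lemma.** A nonzero common eigenvector of the good Hecke operators at level `M`
yields a normalised eigenform of level `M` with the prescribed good eigenvalues. -/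
theorem exists_normalizedEigenform_of_eigenvector {M : ℕ} [NeZero M] (S : Set ℕ) (lam : ℕ → ℂ)
    (h : CuspForm (Gamma0 M) 2) (hh : h ≠ 0)
    (heig : ∀ (ℓ : ℕ) (hℓ : ℓ.Prime) (hℓM : ¬ ℓ ∣ M), ℓ ∉ S →
      CuspForm.heckeTLin 2 hℓ hℓM h = lam ℓ • h) :
    ∃ g : CuspForm (Gamma0 M) 2, g.IsNormalizedEigenform ∧
      ∀ ℓ : ℕ, ℓ.Prime → ¬ ℓ ∣ M → ℓ ∉ S → qCoeff g ℓ = lam ℓ := by
  classical
  have := finiteDimensional_cuspForm M
  set W := goodEigenspace M S lam with hW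
  have hhW : h ∈ W := heig
  have : Nontrivial W := ⟨⟨⟨h, hhW⟩, 0, fun h0 => hh (congrArg Subtype.val h0)⟩⟩
  set ρ := heckeOnGood M S lam with hρ
  -- a maximal ideal containing the kernel
  have hker : RingHom.ker ρ ≠ ⊤ := by
    intro htop
    have h1 : (1 : heckeAlgebra M 2 (∅ : Set ℕ)) ∈ RingHom.ker ρ := htop ▸ Submodule.mem_top
    rw [RingHom.mem_ker, map_one] at h1
    have h2 := congrArg (fun e : Module.End ℂ W => e ⟨h, hhW⟩) h1
    simp only [Module.End.one_apply, LinearMap.zero_apply] at h2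
    exact hh (congrArg Subtype.val h2)
  obtain ⟨𝔫, h𝔫max, h𝔫le⟩ := Ideal.exists_le_maximal _ hker
  have : 𝔫.IsPrime := h𝔫max.isPrime
  obtain ⟨g, χ, hg0, hgχ, -⟩ := Fermat.Agent.S49.exists_eigenvector_ker_le' ρ 𝔫 h𝔫le
  have hg0' : (g : CuspForm (Gamma0 M) 2) ≠ 0 := fun h0 => hg0 (Subtype.ext h0)
  have hgχ' : ∀ t : heckeAlgebra M 2 (∅ : Set ℕ),
      (t : Module.End ℂ (CuspForm (Gamma0 M) 2)) (g : CuspForm (Gamma0 M) 2)
        = χ t • (g : CuspForm (Gamma0 M) 2) := by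
    intro t
    have := congrArg Subtype.val (hgχ t)
    simpa [hρ, heckeOnGood_apply_coe] using this
  obtain ⟨f, hf, hfχ⟩ := Fermat.Agent.S49.exists_normalized_eigenform
    (g : CuspForm (Gamma0 M) 2) hg0' χ hgχ'
  refine ⟨f, hf, fun ℓ hℓ hℓM hℓS => ?_⟩
  rw [hfχ ℓ hℓ hℓM]
  have h1 := hgχ' (heckeAlgebra.T hℓ hℓM (Set.notMem_empty _))
  rw [heckeAlgebra.coe_T, g.2 ℓ hℓ hℓM hℓS] at h1
  have h2 : (lam ℓ - χ (heckeAlgebra.T hℓ hℓM (Set.notMem_empty _))) •
      (g : CuspForm (Gamma0 M) 2) = 0 := by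
    rw [sub_smul, h1, sub_self]
  rcases smul_eq_zero.mp h2 with h3 | h3
  · exact (sub_eq_zero.mp h3).symm
  · exact absurd h3 hg0'

/-- **E-lemma, newform shape.** If the good eigensystem of `f` (level `N`) is realised by a
nonzero common eigenvector at level `M ∣ N`, then it occurs at `M` in the sense of the prelude. -/
theorem goodEigensystemOccursAt_of_eigenvector {N M : ℕ} [NeZero M] (hMN : M ∣ N)
    (f : CuspForm (Gamma0 N) 2) (h : CuspForm (Gamma0 M) 2) (hh : h ≠ 0)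
    (heig : ∀ (ℓ : ℕ) (hℓ : ℓ.Prime) (hℓN : ¬ ℓ ∣ N),
      CuspForm.heckeTLin 2 hℓ (fun hd => hℓN (hd.trans hMN)) h = qCoeff f ℓ • h) :
    CuspForm.GoodEigensystemOccursAt f M := by
  obtain ⟨g, hg, hgl⟩ := exists_normalizedEigenform_of_eigenvector
    (S := {ℓ | ℓ ∣ N}) (fun ℓ => qCoeff f ℓ) h hh
    (fun ℓ hℓ hℓM hℓS => heig ℓ hℓ hℓS)
  exact ⟨g, hg, fun ℓ hℓ hℓN => hgl ℓ hℓ (fun hd => hℓN (hd.trans hMN)) hℓN⟩

end Fermat.Agent.Lib.Newform.H863
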