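import Fermat.Agent.Lib.Newform.H863.GoodEigen

/-!
# NEWFORM library, piece D2 (helper863): the newform attached to an eigenform

With the prelude's definition (`IsNewform` = normalised eigenform whose good eigensystem does
not occur at any proper divisor level), the existence of the associated newform is a
minimal-level argument.
-/

set_option autoImplicit false
open CuspForm CongruenceSubgroup ModularFormClass

namespace Fermat.Agent.Lib.Newform.H863

/-- Transitivity of "the good eigensystem occurs". -/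
theorem goodEigensystemOccursAt_trans {N M M' : ℕ} (hMN : M ∣ N)
    {f : CuspForm (Gamma0 N) 2} {g : CuspForm (Gamma0 M) 2}
    (hg : ∀ ℓ : ℕ, ℓ.Prime → ¬ ℓ ∣ N → qCoeff g ℓ = qCoeff f ℓ)
    (h : GoodEigensystemOccursAt g M') : GoodEigensystemOccursAt f M' := by
  obtain ⟨h', hh', hl⟩ := h
  refine ⟨h', hh', fun ℓ hℓ hℓN => ?_⟩
  rw [hl ℓ hℓ (fun hd => hℓN (hd.trans hMN)), hg ℓ hℓ hℓN]

/-- **D2.** Every normalised eigenform of level `N ≠ 0` has an associated newform (in the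
prelude's sense) of some level `M ∣ N` with the same good eigenvalues. -/
theorem exists_isNewform_of_isNormalizedEigenform {N : ℕ} [NeZero N]
    (f : CuspForm (Gamma0 N) 2) (hf : f.IsNormalizedEigenform) :
    ∃ M : ℕ, M ∣ N ∧ ∃ g : CuspForm (Gamma0 M) 2, g.IsNewform ∧
      ∀ ℓ : ℕ, ℓ.Prime → ¬ ℓ ∣ N → qCoeff g ℓ = qCoeff f ℓ := by
  classical
  have hex : ∃ M : ℕ, M ∣ N ∧ GoodEigensystemOccursAt f M :=
    ⟨N, dvd_rfl, GoodEigensystemOccursAt.refl hf⟩
  obtain ⟨hMN, g, hg, hgl⟩ := Nat.find_spec hex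
  refine ⟨Nat.find hex, hMN, g, ⟨hg, fun M' hM' hne hocc => ?_⟩, hgl⟩
  have hM0 : Nat.find hex ≠ 0 := fun h0 => NeZero.ne N (Nat.eq_zero_of_zero_dvd (h0 ▸ hMN))
  have hlt : M' < Nat.find hex :=
    lt_of_le_of_ne (Nat.le_of_dvd (Nat.pos_of_ne_zero hM0) hM') hne
  exact Nat.find_min hex hlt ⟨hM'.trans hMN, goodEigensystemOccursAt_trans hMN hgl hocc⟩

/-- A newform's good eigensystem occurs at no proper divisor level, even for a common
eigenvector of the good Hecke operators only. -/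
theorem IsNewform.eq_zero_of_eigenvector {N M : ℕ} [NeZero N] (hMN : M ∣ N) (hne : M ≠ N)
    {f : CuspForm (Gamma0 N) 2} (hf : f.IsNewform) (h : CuspForm (Gamma0 M) 2)
    (heig : ∀ (ℓ : ℕ) (hℓ : ℓ.Prime) (hℓN : ¬ ℓ ∣ N),
      CuspForm.heckeTLin 2 hℓ (fun hd => hℓN (hd.trans hMN)) h = qCoeff f ℓ • h) :
    h = 0 := by
  by_contra hh
  haveI : NeZero M := ⟨fun h0 => NeZero.ne N (Nat.eq_zero_of_zero_dvd (h0 ▸ hMN))⟩
  exact hf.2 M hMN hne (goodEigensystemOccursAt_of_eigenvector hMN f h hh heig)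

end Fermat.Agent.Lib.Newform.H863
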