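import Fermat.Agent.Lib.Newform.H863.Degeneracy
import Fermat.Prelude.Def_FLTPrelim_Modularity

/-!
# NEWFORM library, layer 1 (helper863): Hecke operators and oldforms

Compatibility of `levelIncl`, `degen` with the Hecke operators (all proofs through
`q`-coefficients).
-/

set_option autoImplicit false

open UpperHalfPlane ModularForm CongruenceSubgroup ModularFormClass CuspForm
open Fermat.Agent.S49

namespace Fermat.Agent.Lib.Newform.H863

/-- Cusp forms of weight 2 on `Γ₀(N)` are determined by their `q`-coefficients. -/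
theorem cuspForm_ext_qCoeff {N : ℕ} {f g : CuspForm (Gamma0 N) 2}
    (h : ∀ n, qCoeff ⇑f n = qCoeff ⇑g n) : f = g := by
  have h0 : f - g = 0 := glue_eq_zero_of_qCoeff _ (fun n => by rw [glue_qCoeff_sub, h n, sub_self])
  exact sub_eq_zero.mp h0

theorem heckeTLin_levelIncl {M N ℓ : ℕ} (h : M ∣ N) (hℓ : ℓ.Prime) (hℓN : ¬ ℓ ∣ N)
    (f : CuspForm (Gamma0 M) 2) :
    CuspForm.heckeTLin 2 hℓ hℓN (levelIncl h f)
      = levelIncl h (CuspForm.heckeTLin 2 hℓ (fun hd => hℓN (hd.trans h)) f) :=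
  DFunLike.coe_injective rfl

theorem heckeULin_levelIncl {M N q : ℕ} [NeZero M] [NeZero N] (h : M ∣ N) (hqM : q ∣ M)
    (f : CuspForm (Gamma0 M) 2) :
    CuspForm.heckeULin 2 (hqM.trans h) (levelIncl h f)
      = levelIncl h (CuspForm.heckeULin 2 hqM f) :=
  DFunLike.coe_injective rfl

/-- For a prime `q ∤ M`: `U_q ∘ incl = incl ∘ T_q - q • B_q` from level `M` to level `M q`. -/
theorem heckeULin_levelIncl_of_not_dvd {M q : ℕ} [NeZero M] [NeZero q] [NeZero (M * q)]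
    (hq : q.Prime) (hqM : ¬ q ∣ M) (f : CuspForm (Gamma0 M) 2) :
    CuspForm.heckeULin 2 (Dvd.intro_left M rfl : q ∣ M * q) (levelIncl (Dvd.intro q rfl) f)
      = levelIncl (Dvd.intro q rfl) (CuspForm.heckeTLin 2 hq hqM f) - (q : ℂ) • degen q f := by
  apply cuspForm_ext_qCoeff
  intro n
  rw [glue_qCoeff_heckeULin hq, glue_qCoeff_sub, glue_qCoeff_smul, qCoeff_levelIncl,
    qCoeff_levelIncl, glue_qCoeff_heckeTLin hq hqM, qCoeff_degen]
  split_ifs <;> ring

/-- `U_q ∘ B_q = incl`. -/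
theorem heckeULin_degen {M q : ℕ} [NeZero q] [NeZero (M * q)] (hq : q.Prime)
    (f : CuspForm (Gamma0 M) 2) :
    CuspForm.heckeULin 2 (Dvd.intro_left M rfl : q ∣ M * q) (degen q f)
      = levelIncl (Dvd.intro q rfl) f := by
  apply cuspForm_ext_qCoeff
  intro n
  rw [glue_qCoeff_heckeULin hq, qCoeff_degen, qCoeff_levelIncl, if_pos (Dvd.intro_left n rfl),
    Nat.mul_div_cancel n hq.pos]

/-- `T_ℓ` commutes with `B_d` for `ℓ ∤ M d`. -/
theorem heckeTLin_degen {M d ℓ : ℕ} [NeZero d] (hℓ : ℓ.Prime) (hℓN : ¬ ℓ ∣ M * d)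
    (f : CuspForm (Gamma0 M) 2) :
    CuspForm.heckeTLin 2 hℓ hℓN (degen d f)
      = degen d (CuspForm.heckeTLin 2 hℓ (fun hd => hℓN (hd.mul_right d)) f) := by
  have hℓd : ¬ ℓ ∣ d := fun hd => hℓN (hd.mul_left M)
  have hcop : Nat.Coprime d ℓ := ((Nat.Prime.coprime_iff_not_dvd hℓ).mpr hℓd).symm
  apply cuspForm_ext_qCoeff
  intro n
  rw [glue_qCoeff_heckeTLin hℓ hℓN, qCoeff_degen, qCoeff_degen, qCoeff_degen]
  by_cases hdn : d ∣ n
  · obtain ⟨m, rfl⟩ := hdn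
    have hd0 : 0 < d := Nat.pos_of_ne_zero (NeZero.ne d)
    rw [if_pos (Dvd.intro _ rfl), if_pos ((Dvd.intro m rfl).mul_right ℓ),
      glue_qCoeff_heckeTLin hℓ, Nat.mul_div_cancel_left m hd0, mul_assoc,
      Nat.mul_div_cancel_left (m * ℓ) hd0]
    by_cases hℓm : ℓ ∣ m
    · obtain ⟨r, rfl⟩ := hℓm
      rw [if_pos (Dvd.intro r rfl), if_pos ((Dvd.intro r rfl).mul_left d),
        Nat.mul_div_cancel_left r hℓ.pos,
        show d * (ℓ * r) / ℓ = d * r by
          rw [Nat.mul_left_comm, Nat.mul_div_cancel_left _ hℓ.pos],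
        if_pos (Dvd.intro r rfl), Nat.mul_div_cancel_left r hd0]
    · have : ¬ ℓ ∣ d * m := fun h => hℓm ((Nat.Coprime.dvd_mul_left hcop.symm).mp h)
      rw [if_neg hℓm, if_neg this]
  · have h1 : ¬ d ∣ n * ℓ := fun h => hdn ((Nat.Coprime.dvd_mul_right hcop).mp h)
    rw [if_neg hdn, if_neg h1, zero_add]
    by_cases hℓn : ℓ ∣ n
    · obtain ⟨r, rfl⟩ := hℓn
      have h2 : ¬ d ∣ r := fun h => hdn (h.mul_left ℓ)
      rw [if_pos (Dvd.intro r rfl), Nat.mul_div_cancel_left r hℓ.pos, if_neg h2, mul_zero]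
    · rw [if_neg hℓn]

end Fermat.Agent.Lib.Newform.H863
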