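import Fermat.Agent.Lib.Newform.H863.Degeneracy
import Fermat.Prelude.Def_FLTPrelim_Modularity

/-!
# NEWFORM library (helper863): the leaf `Raise`

`raise_statement` is *verbatim* the body of `Fermat.Agent.Lib.Newform.H23.Raise`
(row-lead's `Spec.lean`): the degeneracy map `B_d` from level `M` to any level `C` with
`d * M ∣ C`, in `q`-coefficients.  (Stated inline so that this file does not depend on the
Spec file; `theorem raise : Raise := raise_statement` is then a one-liner.)
-/

set_option autoImplicit false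

open CongruenceSubgroup
open scoped MatrixGroups

namespace Fermat.Agent.Lib.Newform.H863

open ModularFormClass

theorem raise_dvd {M d C : ℕ} (h : d * M ∣ C) : M * d ∣ C := by rwa [Nat.mul_comm] at h

/-- The raised form `B_d g` at level `C`, `d * M ∣ C`, `d ≠ 0`, as a linear map. -/
noncomputable def raiseLin {M d C : ℕ} [NeZero d] (h : d * M ∣ C) :
    CuspForm (Gamma0 M) 2 →ₗ[ℂ] CuspForm (Gamma0 C) 2 :=
  (levelIncl (raise_dvd h)).comp (degen d)

theorem qCoeff_raiseLin {M d C : ℕ} [NeZero d] (h : d * M ∣ C) (g : CuspForm (Gamma0 M) 2)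
    (n : ℕ) : qCoeff ⇑(raiseLin h g) n = if d ∣ n then qCoeff ⇑g (n / d) else 0 := by
  change qCoeff ⇑(levelIncl (raise_dvd h) (degen d g)) n = _
  rw [qCoeff_levelIncl, qCoeff_degen]

theorem raiseLin_apply {M d C : ℕ} [NeZero d] (h : d * M ∣ C) (g : CuspForm (Gamma0 M) 2)
    (τ : UpperHalfPlane) : raiseLin h g τ = g (ModularForm.heckeDiagMatrix d • τ) :=
  degen_apply d g τ

theorem raiseLin_injective {M d C : ℕ} [NeZero d] (h : d * M ∣ C) :
    Function.Injective (raiseLin h : CuspForm (Gamma0 M) 2 → CuspForm (Gamma0 C) 2) :=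
  (levelIncl_injective (raise_dvd h)).comp (degen_injective d)

/-- **RAISE** (body of `H23.Raise`). -/
theorem raise_statement :
    ∀ (M d C : ℕ) [NeZero C], d * M ∣ C → ∀ g : CuspForm (Gamma0 M) 2,
      ∃ h : CuspForm (Gamma0 C) 2, ∀ n : ℕ,
        qCoeff h n = if d ∣ n then qCoeff g (n / d) else 0 := by
  intro M d C _ hdvd g
  have hd : d ≠ 0 := by
    rintro rfl
    rw [Nat.zero_mul, zero_dvd_iff] at hdvd
    exact NeZero.ne C hdvd
  haveI : NeZero d := ⟨hd⟩
  exact ⟨raiseLin hdvd g, fun n => qCoeff_raiseLin hdvd g n⟩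

end Fermat.Agent.Lib.Newform.H863
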