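import Mathlib.NumberTheory.ModularForms.NormTrace
import Fermat.Prelude.Def_ModularForm_HeckeOperatorForms
import Fermat.Prelude.Thm_CongruenceSubgroup_one_mem_strictPeriods_Gamma0
import Fermat.Agent.S49.Glue

/-!
# NEWFORM library, layer 0 (helper863): level inclusion and degeneracy maps

For weight 2 cusp forms on `Γ₀(M)`:

* `levelIncl (h : M ∣ N) : S₂(Γ₀(M)) →ₗ S₂(Γ₀(N))`, same function, same `q`-coefficients;
* `degen d : S₂(Γ₀(M)) →ₗ S₂(Γ₀(M * d))`, `(degen d f) τ = f (d τ)`,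
  `qCoeff (degen d f) n = if d ∣ n then qCoeff f (n / d) else 0`.
-/

set_option autoImplicit false

open UpperHalfPlane ModularForm CongruenceSubgroup Matrix.SpecialLinearGroup ModularFormClass
open scoped MatrixGroups ModularForm Manifold

namespace Fermat.Agent.Lib.Newform.H863

noncomputable section

/-- Restriction of a cusp form to a smaller subgroup. -/
def restrictCF {Γ Γ' : Subgroup (GL (Fin 2) ℝ)} {k : ℤ} (h : Γ ≤ Γ') (f : CuspForm Γ' k) :
    CuspForm Γ k where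
  toFun := f
  slash_action_eq' γ hγ := f.slash_action_eq' γ (h hγ)
  holo' := f.holo'
  zero_at_cusps' hc := f.zero_at_cusps' (hc.mono h)

@[simp] theorem coe_restrictCF {Γ Γ' : Subgroup (GL (Fin 2) ℝ)} {k : ℤ} (h : Γ ≤ Γ')
    (f : CuspForm Γ' k) : ⇑(restrictCF h f) = ⇑f := rfl

theorem Gamma0_le_of_dvd {M N : ℕ} (h : M ∣ N) : Gamma0 N ≤ Gamma0 M := by
  intro g hg
  rw [Gamma0_mem] at hg ⊢
  have h1 : (N : ℤ) ∣ g 1 0 := (ZMod.intCast_zmod_eq_zero_iff_dvd _ _).mp hg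
  exact (ZMod.intCast_zmod_eq_zero_iff_dvd _ _).mpr ((Int.natCast_dvd_natCast.mpr h).trans h1)

theorem Gamma0_map_le_of_dvd {M N : ℕ} (h : M ∣ N) :
    (Gamma0 N : Subgroup (GL (Fin 2) ℝ)) ≤ (Gamma0 M : Subgroup (GL (Fin 2) ℝ)) :=
  Subgroup.map_mono (Gamma0_le_of_dvd h)

/-- Level inclusion `S₂(Γ₀(M)) → S₂(Γ₀(N))` for `M ∣ N`. -/
def levelIncl {M N : ℕ} (h : M ∣ N) :
    CuspForm (Gamma0 M) 2 →ₗ[ℂ] CuspForm (Gamma0 N) 2 where
  toFun f := restrictCF (Gamma0_map_le_of_dvd h) f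
  map_add' _ _ := DFunLike.coe_injective rfl
  map_smul' _ _ := DFunLike.coe_injective rfl

@[simp] theorem coe_levelIncl {M N : ℕ} (h : M ∣ N) (f : CuspForm (Gamma0 M) 2) :
    ⇑(levelIncl h f) = ⇑f := rfl

theorem qCoeff_levelIncl {M N : ℕ} (h : M ∣ N) (f : CuspForm (Gamma0 M) 2) (n : ℕ) :
    qCoeff ⇑(levelIncl h f) n = qCoeff ⇑f n := rfl

theorem levelIncl_injective {M N : ℕ} (h : M ∣ N) : Function.Injective (levelIncl h) := by
  intro f g hfg
  apply DFunLike.coe_injective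
  have := congrArg (fun F : CuspForm (Gamma0 N) 2 => (⇑F : ℍ → ℂ)) hfg
  simpa using this

/-! ### The degeneracy map `f(τ) ↦ f(d τ)` -/

theorem degen_det_eq (g : SL(2, ℤ)) : g 0 0 * g 1 1 - g 0 1 * g 1 0 = 1 := by
  have := g.det_coe
  rw [Matrix.det_fin_two] at this
  exact this

/-- `diag(d,1) g = g' diag(d,1)` with explicit `g'`, when `d ∣ g 1 0`. -/
theorem degen_diag_mul {d : ℕ} (hd : d ≠ 0) (g : SL(2, ℤ)) (e : ℤ) (he : g 1 0 = d * e) :
    ∃ g' : SL(2, ℤ), g' 1 0 = e ∧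
      heckeDiagMatrix d * mapGL ℝ g = mapGL ℝ g' * heckeDiagMatrix d := by
  have hdet := degen_det_eq g
  refine ⟨⟨!![g 0 0, d * g 0 1; e, g 1 1], ?_⟩, ?_, ?_⟩
  · rw [Matrix.det_fin_two_of]
    linear_combination hdet + (g 0 1) * he
  · simp
  · ext i j
    fin_cases i <;> fin_cases j <;>
      simp [hd, Matrix.mul_apply, Fin.sum_univ_two]
    all_goals first
      | (have := congrArg (Int.cast : ℤ → ℝ) he; push_cast at this ⊢; linear_combination this)
      | (have := congrArg (Int.cast : ℤ → ℝ) he; push_cast at this ⊢; linear_combination -this)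
      | ring1

open ConjAct Pointwise in
theorem Gamma0_mul_le_conj {M d : ℕ} (hd : d ≠ 0) :
    (Gamma0 (M * d) : Subgroup (GL (Fin 2) ℝ)) ≤
      toConjAct (heckeDiagMatrix d)⁻¹ • (Gamma0 M : Subgroup (GL (Fin 2) ℝ)) := by
  rintro γ ⟨g, hg, rfl⟩
  rw [Subgroup.mem_pointwise_smul_iff_inv_smul_mem, ← map_inv, inv_inv, ConjAct.smul_def,
    ConjAct.ofConjAct_toConjAct]
  have hg' : ((g 1 0 : ℤ) : ZMod (M * d)) = 0 := by simpa [Gamma0_mem] using hg
  obtain ⟨e', he'⟩ := (ZMod.intCast_zmod_eq_zero_iff_dvd _ _).mp hg'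
  have he : g 1 0 = d * (M * e') := by rw [he']; push_cast; ring
  obtain ⟨g', hg'10, hg'⟩ := degen_diag_mul hd g (M * e') he
  rw [hg', mul_inv_cancel_right]
  refine ⟨g', Gamma0_mem.mpr ?_, rfl⟩
  rw [hg'10]
  push_cast
  simp

/-- The degeneracy map `B_d : S₂(Γ₀(M)) → S₂(Γ₀(M d))`, `f(τ) ↦ f(d τ)`. -/
def degen (d : ℕ) [NeZero d] {M : ℕ} :
    CuspForm (Gamma0 M) 2 →ₗ[ℂ] CuspForm (Gamma0 (M * d)) 2 where
  toFun f := (d : ℂ)⁻¹ • restrictCF (Gamma0_mul_le_conj (NeZero.ne d))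
    (CuspForm.translate f (heckeDiagMatrix d))
  map_add' f g := by
    apply DFunLike.coe_injective
    ext τ
    simp only [CuspForm.IsGLPos.coe_smul, coe_restrictCF, CuspForm.coe_add, Pi.smul_apply,
      Pi.add_apply, smul_eq_mul]
    change _ * ((⇑(f + g)) ∣[(2 : ℤ)] heckeDiagMatrix d) τ = _ * ((⇑f) ∣[(2 : ℤ)] heckeDiagMatrix d) τ
      + _ * ((⇑g) ∣[(2 : ℤ)] heckeDiagMatrix d) τ
    rw [CuspForm.coe_add, SlashAction.add_slash, Pi.add_apply, mul_add]
  map_smul' c f := by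
    apply DFunLike.coe_injective
    ext τ
    simp only [CuspForm.IsGLPos.coe_smul, coe_restrictCF, Pi.smul_apply, smul_eq_mul,
      RingHom.id_apply]
    change _ * ((⇑(c • f)) ∣[(2 : ℤ)] heckeDiagMatrix d) τ
      = c * (_ * ((⇑f) ∣[(2 : ℤ)] heckeDiagMatrix d) τ)
    rw [slash_heckeDiagMatrix_apply 2 (NeZero.ne d), slash_heckeDiagMatrix_apply 2 (NeZero.ne d),
      CuspForm.IsGLPos.coe_smul, Pi.smul_apply, smul_eq_mul]
    ring

theorem degen_apply (d : ℕ) [NeZero d] {M : ℕ} (f : CuspForm (Gamma0 M) 2) (τ : ℍ) :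
    degen d f τ = f (heckeDiagMatrix d • τ) := by
  change ((d : ℂ)⁻¹ • restrictCF (Gamma0_mul_le_conj (NeZero.ne d))
    (CuspForm.translate f (heckeDiagMatrix d))) τ = _
  rw [CuspForm.IsGLPos.coe_smul, Pi.smul_apply, smul_eq_mul, coe_restrictCF]
  change _ * ((⇑f) ∣[(2 : ℤ)] heckeDiagMatrix d) τ = _
  rw [slash_heckeDiagMatrix_apply 2 (NeZero.ne d)]
  have hd : (d : ℂ) ≠ 0 := Nat.cast_ne_zero.mpr (NeZero.ne d)
  norm_num
  field_simp

theorem qParam_diag_smul (d : ℕ) [NeZero d] (τ : ℍ) :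
    Function.Periodic.qParam 1 ((heckeDiagMatrix d • τ : ℍ) : ℂ) =
      Function.Periodic.qParam 1 (τ : ℂ) ^ d := by
  rw [coe_heckeDiagMatrix_smul (NeZero.ne d), Function.Periodic.qParam, Function.Periodic.qParam,
    ← Complex.exp_nat_mul]
  congr 1
  push_cast
  ring

/-- The `q`-expansion of `f(d τ)`. -/
theorem qCoeff_degen (d : ℕ) [NeZero d] {M : ℕ} (f : CuspForm (Gamma0 M) 2) (n : ℕ) :
    qCoeff ⇑(degen d f) n = if d ∣ n then qCoeff ⇑f (n / d) else 0 := by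
  set c : ℕ → ℂ := fun n ↦ if d ∣ n then qCoeff ⇑f (n / d) else 0 with hc
  have hd : 0 < d := Nat.pos_of_ne_zero (NeZero.ne d)
  have hinj : Function.Injective (fun m : ℕ ↦ d * m) := fun a b h ↦
    Nat.eq_of_mul_eq_mul_left hd h
  haveI : Fact (IsCusp OnePoint.infty
      (Subgroup.map (Matrix.SpecialLinearGroup.mapGL ℝ) (Gamma0 M))) :=
    ⟨Subgroup.isCusp_of_mem_strictPeriods one_pos (one_mem_strictPeriods_Gamma0 M)⟩
  have key : ∀ τ : ℍ, HasSum (fun m ↦ c m • Function.Periodic.qParam 1 (τ : ℂ) ^ m)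
      (degen d f τ) := by
    intro τ
    have h1 := ModularForm.hasSum_qExpansion (f := f) one_pos (one_mem_strictPeriods_Gamma0 M)
      (heckeDiagMatrix d • τ)
    rw [qParam_diag_smul] at h1
    rw [← degen_apply] at h1
    rw [← hinj.hasSum_iff]
    · have hfun : ((fun m ↦ c m • Function.Periodic.qParam 1 (τ : ℂ) ^ m) ∘ fun m : ℕ ↦ d * m) =
          fun i ↦ (qExpansion 1 ⇑f).coeff i * (Function.Periodic.qParam 1 (τ : ℂ) ^ d) ^ i := by
        funext m
        simp only [Function.comp_apply, hc, dvd_mul_right, if_true,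
          Nat.mul_div_cancel_left m hd, smul_eq_mul, qCoeff]
        rw [pow_mul]
      rw [hfun]
      exact h1
    · intro x hx
      have : ¬ d ∣ x := fun ⟨m, hm⟩ ↦ hx ⟨m, hm.symm⟩
      simp [hc, this]
  exact (ModularFormClass.qExpansion_coeff_unique one_pos
    (one_mem_strictPeriods_Gamma0 (M * d)) key n).symm

theorem degen_injective (d : ℕ) [NeZero d] {M : ℕ} :
    Function.Injective (degen d : CuspForm (Gamma0 M) 2 → CuspForm (Gamma0 (M * d)) 2) := by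
  intro f g hfg
  have h0 : f - g = 0 := by
    apply Fermat.Agent.S49.glue_eq_zero_of_qCoeff
    intro n
    have h1 := congrArg (fun F : CuspForm (Gamma0 (M * d)) 2 => qCoeff ⇑F (d * n)) hfg
    simp only [qCoeff_degen, dvd_mul_right, if_true,
      Nat.mul_div_cancel_left n (Nat.pos_of_ne_zero (NeZero.ne d))] at h1
    rw [Fermat.Agent.S49.glue_qCoeff_sub, h1, sub_self]
  exact sub_eq_zero.mp h0

end

end Fermat.Agent.Lib.Newform.H863
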