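import Fermat.Agent.Lib.Newform.H863.X8Poly
import Fermat.Agent.Lib.Newform.H958.X.Spec
import Fermat.Agent.Lib.Newform.H958.Final

/-!
# NEWFORM block X, piece X8 (helper863): local case analysis

From the local identity (`H958.X.LocalIdentity`, the output of X6 + X7) we derive the targets of
block X:

* `crossLevelSq_of : LocalIdentity → CrossLevelSq`  (what S36 needs; no strict bound);
* `crossLevel_of : LocalIdentity → StrictBound → CrossLevel`;
* `strongMultOne_of : LocalIdentity → StrictBound → StrongMultOne`.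

Inputs from the core of the library (all on main, unconditional): `H958.badCoeff`
(`a_q² = 1` if `q ∥ N`, `a_q = 0` if `q² ∣ N`) and `H958.descent`.
-/

set_option autoImplicit false

open CongruenceSubgroup Polynomial

namespace Fermat.Agent.Lib.Newform.H863.X8

open ModularFormClass Fermat.Agent.Lib.Newform.H958 Fermat.Agent.Lib.Newform.H958.X

/-- The three possible shapes of the local Euler factor of a newform. -/
theorem shape {N : ℕ} [NeZero N] {f : CuspForm (Gamma0 N) 2} (hf : f.IsNewform) {q : ℕ}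
    (hq : q.Prime) :
    (N.factorization q = 0 ∧ ¬ q ∣ N ∧
      eulerPoly N (qCoeff f) q = 1 - C (qCoeff f q) * X + C (q : ℂ) * X ^ 2 ∧
      eulerPolyRev N (qCoeff f) q =
        X ^ 2 - C (qCoeff f q * ((q : ℂ) ^ 2)⁻¹) * X + C (((q : ℂ) ^ 3)⁻¹)) ∨
    (N.factorization q = 1 ∧ qCoeff f q ^ 2 = 1 ∧
      eulerPoly N (qCoeff f) q = 1 - C (qCoeff f q) * X ∧
      eulerPolyRev N (qCoeff f) q = X ^ 2 - C (qCoeff f q * ((q : ℂ) ^ 2)⁻¹) * X) ∨
    (2 ≤ N.factorization q ∧ qCoeff f q = 0 ∧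
      eulerPoly N (qCoeff f) q = 1 ∧ eulerPolyRev N (qCoeff f) q = X ^ 2) := by
  have hN : N ≠ 0 := NeZero.ne N
  by_cases hqN : q ∣ N
  · have hbad := badCoeff N f hf q hq hqN
    have hpos : 0 < N.factorization q := hq.factorization_pos_of_dvd hN hqN
    by_cases hq2 : q ^ 2 ∣ N
    · right; right
      have ha := hbad.2 hq2
      refine ⟨(hq.pow_dvd_iff_le_factorization hN).mp hq2, ha, ?_, ?_⟩
      · rw [eulerPoly, if_pos hqN, ha]; simp
      · rw [eulerPolyRev, if_pos hqN, ha]; simp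
    · right; left
      have ha := hbad.1 hq2
      have hle : ¬ 2 ≤ N.factorization q := fun h =>
        hq2 ((hq.pow_dvd_iff_le_factorization hN).mpr h)
      refine ⟨by omega, ha, ?_, ?_⟩
      · rw [eulerPoly, if_pos hqN, add_zero]
      · rw [eulerPolyRev, if_pos hqN, add_zero]
  · left
    refine ⟨Nat.factorization_eq_zero_of_not_dvd hqN, hqN, ?_, ?_⟩
    · rw [eulerPoly, if_neg hqN]
    · rw [eulerPolyRev, if_neg hqN]

theorem cast_prime_ne_zero {q : ℕ} (hq : q.Prime) : (q : ℂ) ≠ 0 :=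
  Nat.cast_ne_zero.mpr hq.ne_zero

theorem cast_prime_ne_one {q : ℕ} (hq : q.Prime) : (q : ℂ) ≠ 1 := by
  intro h
  have : q = 1 := by exact_mod_cast h
  exact hq.ne_one this

theorem cast_prime_sq_ne_one {q : ℕ} (hq : q.Prime) : (q : ℂ) ^ 2 ≠ 1 := by
  intro h
  have h1 : q ^ 2 = 1 := by exact_mod_cast h
  have h2 : q = 1 := by
    rcases Nat.pow_eq_one.mp h1 with h3 | h3
    · exact h3
    · exact absurd h3 (by norm_num)
  exact hq.ne_one h2

/-- The local comparison at one prime: if two newforms satisfy the local identity at `q`, then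
either `v_q(N) ≤ v_q(N')`-type information or an exceptional equality `a_q(g)² = (q+1)²`. -/
theorem local_le {N N' : ℕ} [NeZero N] [NeZero N'] {f : CuspForm (Gamma0 N) 2}
    {g : CuspForm (Gamma0 N') 2} (hf : f.IsNewform) (hg : g.IsNewform) {q : ℕ} (hq : q.Prime)
    {c : ℂ} (hc : c ≠ 0)
    (hid : X ^ (N'.factorization q) * eulerPolyRev N (qCoeff f) q * eulerPoly N' (qCoeff g) q =
        C c * (X ^ (N.factorization q) * eulerPoly N (qCoeff f) q *
          eulerPolyRev N' (qCoeff g) q)) :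
    (2 ≤ N.factorization q → N.factorization q = N'.factorization q) ∧
    (N.factorization q = 1 → N'.factorization q = 0 →
      ¬ q ∣ N' ∧ qCoeff g q ^ 2 = ((q : ℂ) + 1) ^ 2) := by
  have hq0 := cast_prime_ne_zero hq
  have hq1 := cast_prime_ne_one hq
  have hq2 := cast_prime_sq_ne_one hq
  rcases shape hf hq with ⟨he, -, hP, hR⟩ | ⟨he, ha, hP, hR⟩ | ⟨he, -, hP, hR⟩
  · exact ⟨fun h => by omega, fun h => by omega⟩
  · refine ⟨fun h => by omega, fun _ he'0 => ?_⟩
    rcases shape hg hq with ⟨he', hqN', hP', hR'⟩ | ⟨he', -, -, -⟩ | ⟨he', -, -, -⟩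
    · rw [hP, hR, hP', hR', he, he'] at hid
      exact ⟨hqN', caseD _ _ _ _ hq0 hq1 ha hid⟩
    · omega
    · omega
  · refine ⟨fun _ => ?_, fun h => by omega⟩
    rcases shape hg hq with ⟨he', -, hP', hR'⟩ | ⟨he', ha', hP', hR'⟩ | ⟨he', -, hP', hR'⟩
    · rw [hP, hR, hP', hR', he'] at hid
      exact (caseA _ _ _ hq0 hq2 _ he hid).elim
    · rw [hP, hR, hP', hR', he'] at hid
      exact (caseB _ _ _ hq0 hq2 ha' _ he hid).elim
    · rw [hP, hR, hP', hR'] at hid
      exact caseC c hc _ _ hid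

/-- Equality of the `q`-th coefficients when the levels have the same `q`-adic valuation. -/
theorem local_eq {N N' : ℕ} [NeZero N] [NeZero N'] {f : CuspForm (Gamma0 N) 2}
    {g : CuspForm (Gamma0 N') 2} (hf : f.IsNewform) (hg : g.IsNewform) {q : ℕ} (hq : q.Prime)
    {c : ℂ}
    (hid : X ^ (N'.factorization q) * eulerPolyRev N (qCoeff f) q * eulerPoly N' (qCoeff g) q =
        C c * (X ^ (N.factorization q) * eulerPoly N (qCoeff f) q *
          eulerPolyRev N' (qCoeff g) q))
    (hee : N.factorization q = N'.factorization q) : qCoeff f q = qCoeff g q := by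
  have hq0 := cast_prime_ne_zero hq
  have hq1 := cast_prime_ne_one hq
  have hq2 := cast_prime_sq_ne_one hq
  rcases shape hf hq with ⟨he, -, hP, hR⟩ | ⟨he, ha, hP, hR⟩ | ⟨he, ha, hP, hR⟩ <;>
    rcases shape hg hq with ⟨he', -, hP', hR'⟩ | ⟨he', ha', hP', hR'⟩ | ⟨he', ha', hP', hR'⟩
  · rw [hP, hR, hP', hR', he, he'] at hid
    exact caseE _ _ _ _ hq0 hq1 hid
  · omega
  · omega
  · omega
  · rw [hP, hR, hP', hR', he, he'] at hid
    exact caseF _ _ _ _ hq0 hq2 ha ha' hid
  · omega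
  · omega
  · omega
  · rw [ha, ha']

/-- Passing from a normalized eigenform to the newform below it keeps the hypothesis
"same eigenvalues outside a finite set". -/
theorem exists_newform_same {N N' : ℕ} [NeZero N'] {f : CuspForm (Gamma0 N) 2}
    {g : CuspForm (Gamma0 N') 2} (hg : g.IsNormalizedEigenform) (S : Finset ℕ)
    (hS : ∀ ℓ : ℕ, ℓ.Prime → ℓ ∉ S → qCoeff f ℓ = qCoeff g ℓ) :
    ∃ (M' : ℕ) (_ : NeZero M') (_ : M' ∣ N') (g₀ : CuspForm (Gamma0 M') 2), g₀.IsNewform ∧
      ∀ ℓ : ℕ, ℓ.Prime → ℓ ∉ S ∪ N'.primeFactors → qCoeff f ℓ = qCoeff g₀ ℓ := by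
  obtain ⟨M', hM', g₀, hg₀, hgg⟩ := descent N' g hg
  have hN' : N' ≠ 0 := NeZero.ne N'
  have hM0 : M' ≠ 0 := fun h => by
    subst h
    exact hN' (zero_dvd_iff.mp hM')
  refine ⟨M', ⟨hM0⟩, hM', g₀, hg₀, fun ℓ hℓ hℓS => ?_⟩
  rw [Finset.mem_union, not_or] at hℓS
  have hℓN' : ¬ ℓ ∣ N' := fun h => hℓS.2 (Nat.mem_primeFactors.mpr ⟨hℓ, h, hN'⟩)
  rw [hS ℓ hℓ hℓS.1, hgg ℓ hℓ hℓN']

/-- **X-SQ** from the local identity. -/
theorem crossLevelSq_of (hL : LocalIdentity) : CrossLevelSq := by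
  intro N N' _ _ f g hf hg S hS q hq hq2
  obtain ⟨M', hM'0, hM', g₀, hg₀, hS'⟩ := exists_newform_same hg S hS
  obtain ⟨c, hc, hid⟩ := hL N M' f g₀ hf hg₀ _ hS' q hq
  have hN : N ≠ 0 := NeZero.ne N
  have hM0 : M' ≠ 0 := NeZero.ne M'
  have he : 2 ≤ N.factorization q := (hq.pow_dvd_iff_le_factorization hN).mp hq2
  have hee := (local_le hf hg₀ hq hc hid).1 he
  have : q ^ 2 ∣ M' := (hq.pow_dvd_iff_le_factorization hM0).mpr (hee ▸ he)
  exact this.trans hM'

/-- **X-LEVEL** from the local identity and the strict trivial bound. -/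
theorem crossLevel_of (hL : LocalIdentity) (hSB : StrictBound) : CrossLevel := by
  intro N N' _ _ f g hf hg S hS
  obtain ⟨M', hM'0, hM', g₀, hg₀, hS'⟩ := exists_newform_same hg S hS
  have hN : N ≠ 0 := NeZero.ne N
  have hM0 : M' ≠ 0 := NeZero.ne M'
  refine Dvd.dvd.trans ?_ hM'
  rw [← Nat.factorization_le_iff_dvd hN hM0]
  intro q
  by_cases hq : q.Prime
  · obtain ⟨c, hc, hid⟩ := hL N M' f g₀ hf hg₀ _ hS' q hq
    have h := local_le hf hg₀ hq hc hid
    rcases Nat.lt_or_ge (N.factorization q) 2 with h2 | h2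
    · rcases Nat.eq_zero_or_pos (N.factorization q) with h0 | h0
      · rw [h0]; exact Nat.zero_le _
      · have h1 : N.factorization q = 1 := by omega
        rcases Nat.eq_zero_or_pos (M'.factorization q) with h0' | h0'
        · obtain ⟨hqM', hsq⟩ := h.2 h1 h0'
          exact absurd hsq (hSB M' g₀ hg₀.1 q hq hqM')
        · omega
    · exact (h.1 h2).le
  · rw [Nat.factorization_eq_zero_of_not_prime N hq]
    exact Nat.zero_le _

/-- Two normalized eigenforms of the same level with the same `a_p` for all primes `p` have the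
same coefficients. -/
theorem qCoeff_eq_of_forall_prime {N : ℕ} {f g : CuspForm (Gamma0 N) 2}
    (hf : f.IsNormalizedEigenform) (hg : g.IsNormalizedEigenform)
    (h : ∀ p : ℕ, p.Prime → qCoeff f p = qCoeff g p) : ∀ n : ℕ, qCoeff f n = qCoeff g n := by
  have hpow : ∀ p : ℕ, p.Prime → ∀ r : ℕ, qCoeff f (p ^ r) = qCoeff g (p ^ r) ∧
      qCoeff f (p ^ (r + 1)) = qCoeff g (p ^ (r + 1)) := by
    intro p hp r
    induction r with
    | zero =>
      refine ⟨?_, ?_⟩
      · rw [pow_zero, hf.qCoeff_one, hg.qCoeff_one]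
      · simpa using h p hp
    | succ r ih =>
      refine ⟨ih.2, ?_⟩
      by_cases hpN : p ∣ N
      · rw [hf.qCoeff_prime_pow_of_dvd p r hp hpN, hg.qCoeff_prime_pow_of_dvd p r hp hpN,
          h p hp, ih.2]
      · rw [hf.qCoeff_prime_pow_of_not_dvd p r hp hpN,
          hg.qCoeff_prime_pow_of_not_dvd p r hp hpN, h p hp, ih.1, ih.2]
  intro n
  induction n using Nat.strong_induction_on with
  | _ n ih =>
    rcases Nat.eq_zero_or_pos n with rfl | hpos
    · rw [Fermat.Agent.Lib.Newform.H683.qCoeff_zero_cusp,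
        Fermat.Agent.Lib.Newform.H683.qCoeff_zero_cusp]
    rcases Nat.eq_or_lt_of_le (Nat.succ_le_of_lt hpos) with h1 | h1
    · have : n = 1 := h1.symm
      subst this
      rw [hf.qCoeff_one, hg.qCoeff_one]
    · obtain ⟨p, hp, hpn⟩ := Nat.exists_prime_and_dvd (show n ≠ 1 by omega)
      obtain ⟨r, m, hm, rfl⟩ := Nat.exists_eq_pow_mul_and_not_dvd hpos.ne' p hp.ne_one
      have hr : r ≠ 0 := by
        rintro rfl
        rw [pow_zero, one_mul] at hpn
        exact hm hpn
      have hcop : (p ^ r).Coprime m :=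
        Nat.Coprime.pow_left r ((Nat.Prime.coprime_iff_not_dvd hp).mpr hm)
      have hmlt : m < p ^ r * m := by
        have hmpos : 0 < m := Nat.pos_of_ne_zero (by rintro rfl; simp at hpos)
        have : 1 < p ^ r := Nat.one_lt_pow hr hp.one_lt
        nlinarith
      rw [hf.qCoeff_mul_of_coprime _ _ hcop, hg.qCoeff_mul_of_coprime _ _ hcop,
        ih m hmlt, (hpow p hp r).1]

/-- **X-SMO** from the local identity and the strict trivial bound. -/
theorem strongMultOne_of (hL : LocalIdentity) (hSB : StrictBound) : StrongMultOne := by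
  intro N N' _ _ f g hf hg S hS
  have h1 : N ∣ N' := crossLevel_of hL hSB N N' f g hf hg.1 S hS
  have h2 : N' ∣ N := crossLevel_of hL hSB N' N g f hg hf.1 S
    (fun ℓ hℓ hℓS => (hS ℓ hℓ hℓS).symm)
  have hNN : N = N' := Nat.dvd_antisymm h1 h2
  subst hNN
  refine ⟨rfl, ?_⟩
  apply qCoeff_eq_of_forall_prime hf.1 hg.1
  intro p hp
  obtain ⟨c, -, hid⟩ := hL N N f g hf hg S hS p hp
  exact local_eq hf hg hp hid rfl

end Fermat.Agent.Lib.Newform.H863.X8
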