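import Mathlib.Algebra.Polynomial.Degree.Lemmas
import Mathlib.Algebra.Polynomial.Coeff
import Mathlib.Analysis.Complex.Basic
import Mathlib.Tactic.LinearCombination
import Mathlib.Tactic.Ring

/-!
# NEWFORM block X, piece X8 (helper863): the polynomial identities

The local identity `X^{e'} P~_f P_g = c X^e P_f P~_g` of block X, in each of the possible
shapes of the local Euler factors of two newforms at a prime `q` (`e = v_q(N)`, `e' = v_q(N')`):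

* `caseA` (`e ≥ 2`, `e' = 0`) and `caseB` (`e ≥ 2`, `e' = 1`) are impossible;
* `caseC` (`e, e' ≥ 2`) gives `e = e'`;
* `caseD` (`e = 1`, `e' = 0`) gives `a_q(g)² = (q + 1)²`;
* `caseE` (`e = e' = 0`) gives `a_q(f) = a_q(g)`;
* `caseF` (`e = e' = 1`) gives `a_q(f) = a_q(g)`.

Pure algebra in `ℂ[X]`.
-/

set_option autoImplicit false

open Polynomial

namespace Fermat.Agent.Lib.Newform.H863.X8

/-- Coefficients of an explicit polynomial of degree `≤ 4`. -/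
theorem coeff_quartic (c0 c1 c2 c3 c4 : ℂ) (n : ℕ) :
    (C c0 + C c1 * X + C c2 * X ^ 2 + C c3 * X ^ 3 + C c4 * X ^ 4 : ℂ[X]).coeff n =
      if n = 0 then c0 else if n = 1 then c1 else if n = 2 then c2 else if n = 3 then c3
        else if n = 4 then c4 else 0 := by
  simp only [coeff_add, coeff_C_mul, coeff_X_pow, coeff_C, coeff_X]
  rcases n with _ | _ | _ | _ | _ | n <;> simp

/-- (A) `e ≥ 2`, `e' = 0` is impossible. -/
theorem caseA (q a' c : ℂ) (hq : q ≠ 0) (hq2 : q ^ 2 ≠ 1) (e : ℕ) (he : 2 ≤ e)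
    (h : X ^ 0 * X ^ 2 * (1 - C a' * X + C q * X ^ 2)
      = C c * (X ^ e * (1 : ℂ[X]) * (X ^ 2 - C (a' * (q ^ 2)⁻¹) * X + C ((q ^ 3)⁻¹)))) :
    False := by
  have hL : (X ^ 0 * X ^ 2 * (1 - C a' * X + C q * X ^ 2) : ℂ[X])
      = X ^ 2 * (C 1 + C (-a') * X + C q * X ^ 2 + C 0 * X ^ 3 + C 0 * X ^ 4) := by
    simp only [map_neg, map_one, map_zero]; ring
  have hR : (C c * (X ^ e * (1 : ℂ[X]) * (X ^ 2 - C (a' * (q ^ 2)⁻¹) * X + C ((q ^ 3)⁻¹))) : ℂ[X])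
      = X ^ e * (C (c * (q ^ 3)⁻¹) + C (-(c * (a' * (q ^ 2)⁻¹))) * X + C c * X ^ 2 + C 0 * X ^ 3
          + C 0 * X ^ 4) := by
    simp only [map_neg, map_mul, map_zero]; ring
  rw [hL, hR] at h
  have h2 := congrArg (fun p => p.coeff 2) h
  have h4 := congrArg (fun p => p.coeff 4) h
  simp only [coeff_X_pow_mul', coeff_quartic] at h2 h4
  set u := q⁻¹ with hu_def
  have hu : q * u = 1 := mul_inv_cancel₀ hq
  have h3i : (q ^ 3)⁻¹ = u ^ 3 := by rw [hu_def, inv_pow]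
  rcases Nat.eq_or_lt_of_le he with rfl | he'
  · have h2' : (1 : ℂ) = c * (q ^ 3)⁻¹ := by simpa using h2
    have h4' : q = c := by simpa using h4
    rw [h3i] at h2'
    apply hq2
    linear_combination (q ^ 2) * h2' - (q ^ 2 * u ^ 3) * h4' + ((q * u) ^ 2 + q * u + 1) * hu
  · have : ¬ e ≤ 2 := by omega
    simp [this] at h2

/-- (B) `e ≥ 2`, `e' = 1` is impossible. -/
theorem caseB (q ε' c : ℂ) (hq : q ≠ 0) (hq2 : q ^ 2 ≠ 1) (hε : ε' ^ 2 = 1) (e : ℕ)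
    (he : 2 ≤ e)
    (h : X ^ 1 * X ^ 2 * (1 - C ε' * X)
      = C c * (X ^ e * (1 : ℂ[X]) * (X ^ 2 - C (ε' * (q ^ 2)⁻¹) * X))) : False := by
  have hL : (X ^ 1 * X ^ 2 * (1 - C ε' * X) : ℂ[X])
      = X ^ 2 * (C 0 + C 1 * X + C (-ε') * X ^ 2 + C 0 * X ^ 3 + C 0 * X ^ 4) := by
    simp only [map_neg, map_one, map_zero]; ring
  have hR : (C c * (X ^ e * (1 : ℂ[X]) * (X ^ 2 - C (ε' * (q ^ 2)⁻¹) * X)) : ℂ[X])
      = X ^ e * (C 0 + C (-(c * (ε' * (q ^ 2)⁻¹))) * X + C c * X ^ 2 + C 0 * X ^ 3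
          + C 0 * X ^ 4) := by
    simp only [map_neg, map_mul, map_zero]; ring
  rw [hL, hR] at h
  have h3 := congrArg (fun p => p.coeff 3) h
  have h4 := congrArg (fun p => p.coeff 4) h
  simp only [coeff_X_pow_mul', coeff_quartic] at h3 h4
  set u := q⁻¹ with hu_def
  have hu : q * u = 1 := mul_inv_cancel₀ hq
  have h2i : (q ^ 2)⁻¹ = u ^ 2 := by rw [hu_def, inv_pow]
  rcases Nat.eq_or_lt_of_le he with rfl | he'
  · have h3' : (1 : ℂ) = -(c * (ε' * (q ^ 2)⁻¹)) := by simpa using h3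
    have h4' : -ε' = c := by simpa using h4
    rw [h2i] at h3'
    apply hq2
    linear_combination (q ^ 2) * h3' + (q ^ 2 * u ^ 2) * hε + (q ^ 2 * u ^ 2 * ε') * h4'
      + (q * u + 1) * hu
  · rcases Nat.eq_or_lt_of_le he' with rfl | he''
    · have h3' : (1 : ℂ) = 0 := by simpa using h3
      exact one_ne_zero h3'
    · have : ¬ e ≤ 3 := by omega
      simp [this] at h3

/-- (C) `e, e' ≥ 2` gives `e = e'`. -/
theorem caseC (c : ℂ) (hc : c ≠ 0) (e e' : ℕ)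
    (h : X ^ e' * X ^ 2 * (1 : ℂ[X]) = C c * (X ^ e * (1 : ℂ[X]) * X ^ 2)) : e = e' := by
  have h1 := congrArg Polynomial.natDegree h
  rw [mul_one, mul_one, ← pow_add, ← pow_add, natDegree_X_pow, natDegree_C_mul_X_pow _ _ hc]
    at h1
  omega

/-- (D) `e = 1`, `e' = 0` forces `a_q(g)² = (q + 1)²`. -/
theorem caseD (q ε a' c : ℂ) (hq : q ≠ 0) (hq1 : q ≠ 1) (hε : ε ^ 2 = 1)
    (h : X ^ 0 * (X ^ 2 - C (ε * (q ^ 2)⁻¹) * X) * (1 - C a' * X + C q * X ^ 2)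
      = C c * (X ^ 1 * (1 - C ε * X) * (X ^ 2 - C (a' * (q ^ 2)⁻¹) * X + C ((q ^ 3)⁻¹)))) :
    a' ^ 2 = (q + 1) ^ 2 := by
  have hL : (X ^ 0 * (X ^ 2 - C (ε * (q ^ 2)⁻¹) * X) * (1 - C a' * X + C q * X ^ 2) : ℂ[X])
      = (C 0 + C (-(ε * (q ^ 2)⁻¹)) * X + C (1 + ε * (q ^ 2)⁻¹ * a') * X ^ 2
          + C (-a' - ε * (q ^ 2)⁻¹ * q) * X ^ 3 + C q * X ^ 4) := by
    simp only [map_neg, map_one, map_zero, map_mul, map_add, map_sub]; ring
  have hR : (C c * (X ^ 1 * (1 - C ε * X) *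
        (X ^ 2 - C (a' * (q ^ 2)⁻¹) * X + C ((q ^ 3)⁻¹))) : ℂ[X])
      = (C 0 + C (c * (q ^ 3)⁻¹) * X + C (c * (-(a' * (q ^ 2)⁻¹) - ε * (q ^ 3)⁻¹)) * X ^ 2
          + C (c * (1 + ε * (a' * (q ^ 2)⁻¹))) * X ^ 3 + C (-(c * ε)) * X ^ 4) := by
    simp only [map_neg, map_one, map_zero, map_mul, map_add, map_sub]; ring
  rw [hL, hR] at h
  have h2 := congrArg (fun p => p.coeff 2) h
  have h4 := congrArg (fun p => p.coeff 4) h
  simp only [coeff_quartic] at h2 h4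
  have h2' : 1 + ε * (q ^ 2)⁻¹ * a' = c * (-(a' * (q ^ 2)⁻¹) - ε * (q ^ 3)⁻¹) := by
    simpa using h2
  have h4' : q = -(c * ε) := by simpa using h4
  set u := q⁻¹ with hu_def
  have hu : q * u = 1 := mul_inv_cancel₀ hq
  have h2i : (q ^ 2)⁻¹ = u ^ 2 := by rw [hu_def, inv_pow]
  have h3i : (q ^ 3)⁻¹ = u ^ 3 := by rw [hu_def, inv_pow]
  rw [h2i, h3i] at h2'
  have hqu2 : q ^ 2 * u ^ 2 = 1 := by linear_combination (q * u + 1) * hu
  have hqu3 : q ^ 3 * u ^ 3 = 1 := by linear_combination ((q * u) ^ 2 + q * u + 1) * hu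
  have hc : c = -(q * ε) := by linear_combination ε * h4' - c * hε
  rw [hc] at h2'
  have E1 : 1 + ε * u ^ 2 * a' = q * ε * a' * u ^ 2 + q * u ^ 3 := by
    linear_combination h2' + (q * u ^ 3) * hε
  have E2 : q ^ 2 + ε * a' = q * ε * a' + 1 := by
    linear_combination (q ^ 2) * E1 + (-(ε * a') + q * ε * a') * hqu2 + hqu3
  have hq1' : q - 1 ≠ 0 := sub_ne_zero.mpr hq1
  have key : ε * a' = q + 1 := by
    apply mul_left_cancel₀ hq1'
    linear_combination (-1 : ℂ) * E2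
  calc a' ^ 2 = (ε * a') ^ 2 := by rw [mul_pow, hε, one_mul]
    _ = (q + 1) ^ 2 := by rw [key]

/-- (E) `e = e' = 0` gives `a_q(f) = a_q(g)`. -/
theorem caseE (q a a' c : ℂ) (hq : q ≠ 0) (hq1 : q ≠ 1)
    (h : X ^ 0 * (X ^ 2 - C (a * (q ^ 2)⁻¹) * X + C ((q ^ 3)⁻¹)) *
          (1 - C a' * X + C q * X ^ 2)
      = C c * (X ^ 0 * (1 - C a * X + C q * X ^ 2) *
          (X ^ 2 - C (a' * (q ^ 2)⁻¹) * X + C ((q ^ 3)⁻¹)))) :
    a = a' := by
  have hL : (X ^ 0 * (X ^ 2 - C (a * (q ^ 2)⁻¹) * X + C ((q ^ 3)⁻¹)) *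
        (1 - C a' * X + C q * X ^ 2) : ℂ[X])
      = (C ((q ^ 3)⁻¹) + C (-(a * (q ^ 2)⁻¹) - (q ^ 3)⁻¹ * a') * X
          + C (1 + a * (q ^ 2)⁻¹ * a' + (q ^ 3)⁻¹ * q) * X ^ 2
          + C (-a' - a * (q ^ 2)⁻¹ * q) * X ^ 3 + C q * X ^ 4) := by
    simp only [map_neg, map_one, map_zero, map_mul, map_add, map_sub]; ring
  have hR : (C c * (X ^ 0 * (1 - C a * X + C q * X ^ 2) *
          (X ^ 2 - C (a' * (q ^ 2)⁻¹) * X + C ((q ^ 3)⁻¹))) : ℂ[X])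
      = (C (c * (q ^ 3)⁻¹) + C (c * (-(a' * (q ^ 2)⁻¹) - (q ^ 3)⁻¹ * a)) * X
          + C (c * (1 + a' * (q ^ 2)⁻¹ * a + (q ^ 3)⁻¹ * q)) * X ^ 2
          + C (c * (-a - a' * (q ^ 2)⁻¹ * q)) * X ^ 3 + C (c * q) * X ^ 4) := by
    simp only [map_neg, map_one, map_zero, map_mul, map_add, map_sub]; ring
  rw [hL, hR] at h
  have h3 := congrArg (fun p => p.coeff 3) h
  have h4 := congrArg (fun p => p.coeff 4) h
  simp only [coeff_quartic] at h3 h4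
  have h3' : -a' - a * (q ^ 2)⁻¹ * q = c * (-a - a' * (q ^ 2)⁻¹ * q) := by simpa using h3
  have h4' : q = c * q := by simpa using h4
  set u := q⁻¹ with hu_def
  have hu : q * u = 1 := mul_inv_cancel₀ hq
  have h2i : (q ^ 2)⁻¹ = u ^ 2 := by rw [hu_def, inv_pow]
  rw [h2i] at h3'
  have hqu2 : q ^ 2 * u ^ 2 = 1 := by linear_combination (q * u + 1) * hu
  have hc : c = 1 := by
    have := mul_right_cancel₀ hq (show 1 * q = c * q by rw [one_mul]; exact h4')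
    exact this.symm
  rw [hc, one_mul] at h3'
  have hq1' : q - 1 ≠ 0 := sub_ne_zero.mpr hq1
  apply mul_left_cancel₀ hq1'
  linear_combination q * h3' + (a - a') * hqu2

/-- (F) `e = e' = 1` gives `a_q(f) = a_q(g)`. -/
theorem caseF (q ε ε' c : ℂ) (hq : q ≠ 0) (hq2 : q ^ 2 ≠ 1)
    (hε : ε ^ 2 = 1) (hε' : ε' ^ 2 = 1)
    (h : X ^ 1 * (X ^ 2 - C (ε * (q ^ 2)⁻¹) * X) * (1 - C ε' * X)
      = C c * (X ^ 1 * (1 - C ε * X) * (X ^ 2 - C (ε' * (q ^ 2)⁻¹) * X))) :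
    ε = ε' := by
  have hL : (X ^ 1 * (X ^ 2 - C (ε * (q ^ 2)⁻¹) * X) * (1 - C ε' * X) : ℂ[X])
      = (C 0 + C 0 * X + C (-(ε * (q ^ 2)⁻¹)) * X ^ 2
          + C (1 + ε * (q ^ 2)⁻¹ * ε') * X ^ 3 + C (-ε') * X ^ 4) := by
    simp only [map_neg, map_one, map_zero, map_mul, map_add, map_sub]; ring
  have hR : (C c * (X ^ 1 * (1 - C ε * X) * (X ^ 2 - C (ε' * (q ^ 2)⁻¹) * X)) : ℂ[X])
      = (C 0 + C 0 * X + C (-(c * (ε' * (q ^ 2)⁻¹))) * X ^ 2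
          + C (c * (1 + ε' * (q ^ 2)⁻¹ * ε)) * X ^ 3 + C (-(c * ε)) * X ^ 4) := by
    simp only [map_neg, map_one, map_zero, map_mul, map_add, map_sub]; ring
  rw [hL, hR] at h
  have h3 := congrArg (fun p => p.coeff 3) h
  have h4 := congrArg (fun p => p.coeff 4) h
  simp only [coeff_quartic] at h3 h4
  have h3' : 1 + ε * (q ^ 2)⁻¹ * ε' = c * (1 + ε' * (q ^ 2)⁻¹ * ε) := by simpa using h3
  have h4' : -ε' = -(c * ε) := by simpa using h4
  set u := q⁻¹ with hu_def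
  have hu : q * u = 1 := mul_inv_cancel₀ hq
  have h2i : (q ^ 2)⁻¹ = u ^ 2 := by rw [hu_def, inv_pow]
  rw [h2i] at h3'
  have hqu2 : q ^ 2 * u ^ 2 = 1 := by linear_combination (q * u + 1) * hu
  rcases sq_eq_one_iff.mp hε with h1 | h1 <;> rcases sq_eq_one_iff.mp hε' with h1' | h1'
  · rw [h1, h1']
  · exfalso
    subst h1 h1'
    have hc : c = -1 := by linear_combination h4'
    subst hc
    apply hq2
    -- `h3' : 1 - u² = -(1 - u²)`
    linear_combination (q ^ 2 / 2) * h3' + hqu2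
  · exfalso
    subst h1 h1'
    have hc : c = -1 := by linear_combination (-1 : ℂ) * h4'
    subst hc
    apply hq2
    linear_combination (q ^ 2 / 2) * h3' + hqu2
  · rw [h1, h1']

end Fermat.Agent.Lib.Newform.H863.X8
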